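/-
GATE-L / (c) part 1 (helper1): **Noether's Hilbert 90 for a group acting smoothly on a field**.

`H` a group acting on a field `F` by field automorphisms (`MulSemiringAction H F`), `c : H → F` a
nowhere vanishing `1`-cocycle, `c (σ τ) = c σ * σ • c τ`, which is *smooth*: there is a finite
`H`-stable set `X ⊆ F` such that `c σ = 1` as soon as `σ` fixes `X` pointwise.  Then `c` is a coboundary: there is `b ≠ 0` with `c σ * σ • b = b` for all `σ`.

No Galois theory is used: the pointwise stabiliser `U` of `X` is normal of finite index, `c` factors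
through `H ⧸ U`, the characters `x ↦ σ • x` (`σ ∈ H ⧸ U`) of the monoid of `U`-fixed elements are
pairwise distinct, hence linearly independent (Dedekind), and `b := ∑_{σ ∈ H ⧸ U} c σ * σ • θ` for a
suitable `U`-fixed `θ`.
-/
import Mathlib

set_option autoImplicit false

namespace Fermat.Agent.GL.Coh.SmoothH90

variable {H F : Type*} [Group H] [Field F] [MulSemiringAction H F]

/-- the pointwise stabiliser of a set `X ⊆ F` -/
def fixer (X : Set F) : Subgroup H where
  carrier := {σ | ∀ x ∈ X, σ • x = x}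
  one_mem' := fun x _ => one_smul H x
  mul_mem' := fun {a b} ha hb x hx => by rw [mul_smul, hb x hx, ha x hx]
  inv_mem' := fun {a} ha x hx => by rw [inv_smul_eq_iff]; exact (ha x hx).symm

theorem mem_fixer {X : Set F} {σ : H} : σ ∈ fixer (H := H) X ↔ ∀ x ∈ X, σ • x = x := Iff.rfl

theorem fixer_normal {X : Set F} (hX : ∀ (σ : H), ∀ x ∈ X, σ • x ∈ X) :
    (fixer (H := H) X).Normal := by
  refine ⟨fun ρ hρ σ x hx => ?_⟩
  have h1 : σ⁻¹ • x ∈ X := hX σ⁻¹ x hx
  rw [mul_smul, mul_smul, hρ _ h1, smul_inv_smul]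

theorem fixer_eq_iInf (X : Set F) :
    fixer (H := H) X = ⨅ x : X, MulAction.stabilizer H (x : F) := by
  ext σ
  simp only [mem_fixer, Subgroup.mem_iInf, MulAction.mem_stabilizer_iff, Subtype.forall]

theorem stabilizer_finiteIndex {x : F} (hx : (MulAction.orbit H x).Finite) :
    (MulAction.stabilizer H x).FiniteIndex := by
  have : Finite (MulAction.orbit H x) := hx
  have : Finite (H ⧸ MulAction.stabilizer H x) :=
    Finite.of_equiv _ (MulAction.orbitEquivQuotientStabilizer H x)
  exact Subgroup.finiteIndex_of_finite_quotient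

theorem fixer_finiteIndex {X : Set F} (hXfin : X.Finite)
    (horb : ∀ x ∈ X, (MulAction.orbit H x).Finite) : (fixer (H := H) X).FiniteIndex := by
  rw [fixer_eq_iInf]
  have : Finite X := hXfin
  have : ∀ x : X, (MulAction.stabilizer H (x : F)).FiniteIndex :=
    fun x => stabilizer_finiteIndex (horb x x.2)
  exact Subgroup.finiteIndex_iInf this

variable (F) in
/-- the multiplicative monoid of elements fixed by a subgroup -/
def fixedMonoid (U : Subgroup H) : Submonoid F where
  carrier := {x | ∀ ρ ∈ U, ρ • x = x}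
  one_mem' := fun ρ _ => smul_one (ρ : H)
  mul_mem' := fun {a b} ha hb ρ hρ => by rw [smul_mul', ha ρ hρ, hb ρ hρ]

theorem mem_fixedMonoid {U : Subgroup H} {x : F} :
    x ∈ fixedMonoid F U ↔ ∀ ρ ∈ U, ρ • x = x := Iff.rfl

theorem subset_fixedMonoid (X : Set F) : X ⊆ fixedMonoid F (fixer (H := H) X) :=
  fun x hx _ hρ => hρ x hx

variable (F) in
/-- the character `x ↦ σ • x` of the monoid of `U`-fixed elements -/
def charOf (U : Subgroup H) (σ : H) : fixedMonoid F U →* F where
  toFun x := σ • (x : F)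
  map_one' := smul_one σ
  map_mul' x y := smul_mul' σ (x : F) (y : F)

theorem charOf_mul_right (U : Subgroup H) (σ ρ : H) (hρ : ρ ∈ U) :
    charOf F U (σ * ρ) = charOf F U σ := by
  refine MonoidHom.ext fun x => ?_
  show (σ * ρ) • (x : F) = σ • (x : F)
  rw [mul_smul, x.2 ρ hρ]

variable (F) in
/-- the characters, indexed by the quotient `H ⧸ U` -/
def charQ (U : Subgroup H) : H ⧸ U → (fixedMonoid F U →* F) :=
  Quotient.lift (charOf F U) (by
    intro a b hab
    have h : a⁻¹ * b ∈ U := QuotientGroup.leftRel_apply.mp hab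
    have : b = a * (a⁻¹ * b) := by group
    rw [this, charOf_mul_right U a _ h])

theorem charQ_mk (U : Subgroup H) (σ : H) : charQ F U (σ : H ⧸ U) = charOf F U σ := rfl

theorem charQ_injective (X : Set F) : Function.Injective (charQ F (fixer (H := H) X)) := by
  intro a b
  refine Quotient.inductionOn₂ a b fun σ τ h => ?_
  refine Quotient.sound (QuotientGroup.leftRel_apply.mpr ?_)
  intro x hx
  have h1 : σ • x = τ • x :=
    DFunLike.congr_fun h (⟨x, subset_fixedMonoid X hx⟩ : fixedMonoid F (fixer (H := H) X))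
  rw [mul_smul, ← h1, inv_smul_smul]

/-- **Hilbert 90 for smooth actions.** -/
theorem exists_smul_eq (c : H → F) (hc0 : ∀ σ, c σ ≠ 0)
    (hc : ∀ σ τ, c (σ * τ) = c σ * σ • c τ)
    (X : Set F) (hXfin : X.Finite) (hXstab : ∀ (σ : H), ∀ x ∈ X, σ • x ∈ X)
    (hc1 : ∀ σ, (∀ x ∈ X, σ • x = x) → c σ = 1) :
    ∃ b : F, b ≠ 0 ∧ ∀ σ, c σ * σ • b = b := by
  classical
  set U : Subgroup H := fixer X with hU
  have hnormal : U.Normal := fixer_normal hXstab
  have horb : ∀ x ∈ X, (MulAction.orbit H x).Finite := by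
    intro x hx
    refine hXfin.subset ?_
    rintro _ ⟨σ, rfl⟩
    exact hXstab σ x hx
  have hfi : U.FiniteIndex := fixer_finiteIndex hXfin horb
  have : Finite (H ⧸ U) := Subgroup.finite_quotient_of_finiteIndex
  have : Fintype (H ⧸ U) := Fintype.ofFinite _
  -- `c` is right `U`-invariant
  have hcU : ∀ σ ρ, ρ ∈ U → c (σ * ρ) = c σ := by
    intro σ ρ hρ
    rw [hc, hc1 ρ hρ, smul_one, mul_one]
  -- `c` on the quotient
  let cQ : H ⧸ U → F := Quotient.lift c (by
    intro a b hab
    have h : a⁻¹ * b ∈ U := QuotientGroup.leftRel_apply.mp hab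
    have : b = a * (a⁻¹ * b) := by group
    rw [this, hcU a _ h])
  have hcQ : ∀ σ : H, cQ (σ : H ⧸ U) = c σ := fun _ => rfl
  -- Dedekind
  have hli : LinearIndependent F (fun a : H ⧸ U => (charQ F U a : fixedMonoid F U → F)) :=
    (linearIndependent_monoidHom (fixedMonoid F U) F).comp (charQ F U) (charQ_injective X)
  have hex : ∃ θ : fixedMonoid F U, ∑ a : H ⧸ U, cQ a * charQ F U a θ ≠ 0 := by
    by_contra hcon
    have hcon : ∀ θ : fixedMonoid F U, ∑ a : H ⧸ U, cQ a * charQ F U a θ = 0 :=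
      fun θ => by_contra fun h => hcon ⟨θ, h⟩
    have hsum : ∑ a : H ⧸ U, cQ a • (charQ F U a : fixedMonoid F U → F) = 0 := by
      funext θ
      rw [Finset.sum_apply]
      simpa using hcon θ
    have h0 := Fintype.linearIndependent_iff.mp hli cQ hsum ((1 : H) : H ⧸ U)
    exact hc0 1 ((hcQ 1).symm.trans h0)
  obtain ⟨θ, hθ⟩ := hex
  refine ⟨∑ a : H ⧸ U, cQ a * charQ F U a θ, hθ, fun τ => ?_⟩
  rw [Finset.smul_sum, Finset.mul_sum]
  refine Fintype.sum_equiv (MulAction.toPerm τ) _ _ fun a => ?_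
  refine Quotient.inductionOn a fun σ => ?_
  show c τ * τ • (cQ (σ : H ⧸ U) * charQ F U (σ : H ⧸ U) θ) =
    cQ (τ • (σ : H ⧸ U)) * charQ F U (τ • (σ : H ⧸ U)) θ
  have hq : τ • (σ : H ⧸ U) = ((τ * σ : H) : H ⧸ U) := rfl
  rw [hq, hcQ, hcQ, charQ_mk, charQ_mk, smul_mul', hc τ σ]
  show c τ * (τ • c σ * τ • (σ • (θ : F))) = c τ * τ • c σ * ((τ * σ) • (θ : F))
  rw [mul_smul, mul_assoc]

end Fermat.Agent.GL.Coh.SmoothH90
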