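/-
GATE-L / (c) part 2 (helper1): **invariant Kummer classes are represented by invariant elements**.

`H` a group acting on a field `F` by field automorphisms with finite orbits, `m ≠ 0`, and
`lc : F →*₀ F` a "leading coefficient": an `H`-equivariant multiplicative map such that
* every `lc x` has an `m`-th root `y` with `lc y = y`  (the constants are `m`-divisible),
* `lc ζ = ζ` for every `m`-th root of unity `ζ`          (roots of unity are constants).

If the class of `u ≠ 0` in `Fˣ / Fˣᵐ` is `H`-invariant (`∀ σ, ∃ c, σ • u = u * c ^ m`), then it is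
represented by an `H`-invariant element: `∃ b ≠ 0, ∀ σ, σ • (u * b ^ m) = u * b ^ m`.

The point: after normalising `lc u = 1` there is for every `σ` a UNIQUE `c σ` with `lc (c σ) = 1`,
`σ • u = u * (c σ) ^ m`; uniqueness makes `c` a genuine `1`-cocycle (the `H²(H, μ_m)`-obstruction
vanishes because of `lc`, not because of any cohomological dimension), which depends only on
`σ • u`, hence is smooth, and Hilbert 90 (`SmoothH90.exists_smul_eq`) applies.

Application (GATE-L, report 204 (c)): `F = FK N ⊆ ℚ̄((q))` with the coefficientwise action of any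
subgroup of `G_ℚ` (e.g. an inertia group), `lc` = leading coefficient of the `q`-expansion at `∞`.
-/
import Mathlib
import Fermat.Agent.GL.Coh.SmoothH90

set_option autoImplicit false

namespace Fermat.Agent.GL.Coh.InvDescent

variable {H F : Type*} [Group H] [Field F] [MulSemiringAction H F]

/-- uniqueness of normalised `m`-th roots -/
theorem normalized_root_unique (m : ℕ) (lc : F →*₀ F)
    (hmu : ∀ ζ : F, ζ ^ m = 1 → lc ζ = ζ) {a b : F} (hb : b ≠ 0)
    (hla : lc a = 1) (hlb : lc b = 1) (hab : a ^ m = b ^ m) : a = b := by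
  have h1 : (a / b) ^ m = 1 := by rw [div_pow, hab, div_self (pow_ne_zero _ hb)]
  have h2 := hmu _ h1
  rw [map_div₀, hla, hlb, div_one] at h2
  exact eq_of_div_eq_one h2.symm

/-- existence of normalised `m`-th roots of `σ • u / u` for normalised `u` -/
theorem exists_normalized_root (m : ℕ) (hm : m ≠ 0) (lc : F →*₀ F)
    (hequiv : ∀ (σ : H) (x : F), lc (σ • x) = σ • lc x)
    (hmu : ∀ ζ : F, ζ ^ m = 1 → lc ζ = ζ) {u : F} (hu0 : u ≠ 0) (hlu : lc u = 1)
    (σ : H) (c : F) (hc : σ • u = u * c ^ m) :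
    ∃ c' : F, lc c' = 1 ∧ σ • u = u * c' ^ m := by
  have hσu : σ • u ≠ 0 := (smul_ne_zero_iff_ne σ).mpr hu0
  have hc0 : c ≠ 0 := by
    rintro rfl
    rw [zero_pow hm, mul_zero] at hc
    exact hσu hc
  have hζ : (lc c) ^ m = 1 := by
    have h := congrArg lc hc
    rw [hequiv, hlu, smul_one, map_mul, hlu, one_mul, map_pow] at h
    exact h.symm
  have hζ0 : lc c ≠ 0 := (map_ne_zero lc).mpr hc0
  refine ⟨c * (lc c)⁻¹, ?_, ?_⟩
  · rw [map_mul, map_inv₀, hmu _ hζ, mul_inv_cancel₀ hζ0]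
  · rw [mul_pow, inv_pow, hζ, inv_one, mul_one, hc]

/-- **Invariant classes of `Fˣ / Fˣᵐ` have invariant representatives.** -/
theorem exists_invariant_rep (m : ℕ) (hm : m ≠ 0) (lc : F →*₀ F)
    (hequiv : ∀ (σ : H) (x : F), lc (σ • x) = σ • lc x)
    (hdiv : ∀ x : F, ∃ y : F, y ^ m = lc x ∧ lc y = y)
    (hmu : ∀ ζ : F, ζ ^ m = 1 → lc ζ = ζ)
    (horb : ∀ x : F, (MulAction.orbit H x).Finite)
    (u : F) (hu0 : u ≠ 0) (hu : ∀ σ : H, ∃ c : F, σ • u = u * c ^ m) :
    ∃ b : F, b ≠ 0 ∧ ∀ σ : H, σ • (u * b ^ m) = u * b ^ m := by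
  classical
  -- Step 1: normalise `u`
  obtain ⟨y, hy, hly⟩ := hdiv u
  have hlu0 : lc u ≠ 0 := (map_ne_zero lc).mpr hu0
  have hy0 : y ≠ 0 := by
    rintro rfl
    rw [zero_pow hm] at hy
    exact hlu0 hy.symm
  have hyy : (y⁻¹) ^ m * y ^ m = 1 := by rw [← mul_pow, inv_mul_cancel₀ hy0, one_pow]
  set u₁ : F := u * (y⁻¹) ^ m with hu₁
  have hu₁0 : u₁ ≠ 0 := mul_ne_zero hu0 (pow_ne_zero _ (inv_ne_zero hy0))
  have hlc1 : lc u₁ = 1 := by
    rw [hu₁, map_mul, map_pow, map_inv₀, hly, inv_pow, hy, mul_inv_cancel₀ hlu0]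
  -- Step 2: normalised roots
  have hroot : ∀ σ : H, ∃ c : F, lc c = 1 ∧ σ • u₁ = u₁ * c ^ m := by
    intro σ
    obtain ⟨c, hc⟩ := hu σ
    refine exists_normalized_root m hm lc hequiv hmu hu₁0 hlc1 σ (c * σ • y⁻¹ * y) ?_
    rw [hu₁, smul_mul', smul_pow', hc, mul_pow, mul_pow]
    linear_combination (-(u * c ^ m * (σ • y⁻¹) ^ m)) * hyy
  choose c hclc hcu using hroot
  have hc0 : ∀ σ, c σ ≠ 0 := by
    intro σ h
    have h1 := hclc σ
    rw [h, map_zero] at h1
    exact zero_ne_one h1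
  have huniq : ∀ {a b : F}, b ≠ 0 → lc a = 1 → lc b = 1 → a ^ m = b ^ m → a = b :=
    fun hb hla hlb hab => normalized_root_unique m lc hmu hb hla hlb hab
  -- `c σ` depends only on `σ • u₁`
  have hdep : ∀ σ τ, σ • u₁ = τ • u₁ → c σ = c τ := by
    intro σ τ h
    refine huniq (hc0 τ) (hclc σ) (hclc τ) (mul_left_cancel₀ hu₁0 ?_)
    rw [← hcu σ, ← hcu τ, h]
  -- the cocycle relation
  have hcoc : ∀ σ τ, c (σ * τ) = c σ * σ • c τ := by
    intro σ τ
    refine huniq (mul_ne_zero (hc0 σ) ((smul_ne_zero_iff_ne σ).mpr (hc0 τ))) (hclc _) ?_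
      (mul_left_cancel₀ hu₁0 ?_)
    · rw [map_mul, hequiv, hclc, hclc, smul_one, mul_one]
    · rw [← hcu (σ * τ), mul_smul, hcu τ, smul_mul', smul_pow', hcu σ, mul_pow, mul_assoc]
  have hc_one : ∀ σ, σ • u₁ = u₁ → c σ = 1 := by
    intro σ h
    refine huniq one_ne_zero (hclc σ) (map_one lc) (mul_left_cancel₀ hu₁0 ?_)
    rw [← hcu σ, h, one_pow, mul_one]
  -- Step 3: the finite stable set
  have hVfin : (Set.range c).Finite := by
    let g : F → F := fun v => if h : ∃ σ : H, σ • u₁ = v then c h.choose else 0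
    refine ((horb u₁).image g).subset ?_
    rintro _ ⟨σ, rfl⟩
    refine ⟨σ • u₁, ⟨σ, rfl⟩, ?_⟩
    have hex : ∃ τ : H, τ • u₁ = σ • u₁ := ⟨σ, rfl⟩
    show (if h : ∃ τ : H, τ • u₁ = σ • u₁ then c h.choose else 0) = c σ
    rw [dif_pos hex]
    exact hdep _ _ hex.choose_spec
  set X : Set F := ⋃ v ∈ insert u₁ (Set.range c), MulAction.orbit H v with hX
  have hXfin : X.Finite := Set.Finite.biUnion (hVfin.insert u₁) (fun v _ => horb v)
  have hXstab : ∀ (σ : H), ∀ x ∈ X, σ • x ∈ X := by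
    intro σ x hx
    rw [hX, Set.mem_iUnion₂] at hx ⊢
    obtain ⟨v, hv, ρ, rfl⟩ := hx
    exact ⟨v, hv, σ * ρ, mul_smul σ ρ v⟩
  have hu₁X : u₁ ∈ X := by
    rw [hX, Set.mem_iUnion₂]
    exact ⟨u₁, Set.mem_insert _ _, MulAction.mem_orbit_self u₁⟩
  -- Step 4: Hilbert 90
  obtain ⟨b, hb0, hb⟩ := SmoothH90.exists_smul_eq c hc0 hcoc X hXfin hXstab
    (fun σ hσ => hc_one σ (hσ u₁ hu₁X))
  refine ⟨y⁻¹ * b, mul_ne_zero (inv_ne_zero hy0) hb0, fun σ => ?_⟩
  have h1 : u * (y⁻¹ * b) ^ m = u₁ * b ^ m := by rw [hu₁, mul_pow, mul_assoc]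
  rw [h1, smul_mul', smul_pow', hcu σ, mul_assoc, ← mul_pow, hb σ]

end Fermat.Agent.GL.Coh.InvDescent
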