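/-
GATE-L / (c) part 3 (helper1): **`H`-invariant Kummer classes of `F_N` come from `H`-invariant
functions**, for ANY subgroup `H ≤ G_ℚ` (e.g. an inertia group), any level and any exponent.

`F = laurentBaseChange ℚ̄ F₀ ⊆ ℚ̄((q))` with the coefficientwise Galois action
(`arithmeticRingAut`), `lc` = leading coefficient of the `q`-expansion.  This instantiates
`InvDescent.exists_invariant_rep`:

* `exists_invariant_rep` : `u ≠ 0`, `∀ σ ∈ H, ∃ c, σ u = u * c ^ m`  ⟹
    `∃ b ≠ 0, ∀ σ ∈ H, σ (u * b ^ m) = u * b ^ m`;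
* `exists_invariant_kum_rep` : a class `x ∈ Kum_m(F_N)` with `gal N m σ x = x` for all `σ ∈ H` is the
  class of an `m`-divisible unit `u` with `galUnits N σ u = u` for all `σ ∈ H`.

No structure theory of `H` is used (no cohomological dimension): the obstruction in `H²(H, μ_m)` is
killed by the rational cusp `∞`.
-/
import Mathlib
import Fermat.Agent.GL.Coh.InvDescent
import Fermat.Agent.GJ.FiniteLevel
import Fermat.Agent.GJ.Kum.KumType

set_option autoImplicit false

noncomputable section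

namespace Fermat.Agent.GL.Coh.InvDescentFK

open ModularCurve AlgebraicCurve HahnSeries Fermat.Agent.GJ.FiniteLevel

local notation "Qb" => AlgebraicClosure ℚ
local notation "GQ" => (AlgebraicClosure ℚ ≃ₐ[ℚ] AlgebraicClosure ℚ)

/-! ### Leading coefficients and `coeffMap` -/

section Lead

variable {R S : Type*} [Field R] [Field S]

theorem order_coeffMap (f : R →+* S) (x : LaurentSeries R) :
    (coeffMap f x).order = x.order := by
  by_cases hx : x = 0
  · rw [hx, map_zero, order_zero, order_zero]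
  have hy : coeffMap f x ≠ 0 := by
    intro h
    have h1 : (coeffMap f x).coeff x.order = 0 := by rw [h, coeff_zero]
    rw [coeffMap_coeff, map_eq_zero] at h1
    exact coeff_order_eq_zero.not.mpr hx h1
  refine le_antisymm (order_le_of_coeff_ne_zero ?_) (order_le_of_coeff_ne_zero ?_)
  · rw [coeffMap_coeff, Ne, map_eq_zero]
    exact coeff_order_eq_zero.not.mpr hx
  · have h1 := coeff_order_eq_zero.not.mpr hy
    rw [coeffMap_coeff, map_eq_zero] at h1
    exact h1

theorem leadingCoeff_coeffMap (f : R →+* S) (x : LaurentSeries R) :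
    (coeffMap f x).leadingCoeff = f x.leadingCoeff := by
  rw [leadingCoeff_eq, leadingCoeff_eq, order_coeffMap, coeffMap_coeff]

end Lead

/-! ### The action and the leading coefficient on `laurentBaseChange ℚ̄ F₀` -/

variable (F₀ : IntermediateField ℚ (LaurentSeries ℚ))

/-- the action of a subgroup of `G_ℚ` on `laurentBaseChange ℚ̄ F₀` (coefficientwise) -/
@[reducible] def galAction (H : Subgroup GQ) : MulSemiringAction H (laurentBaseChange Qb F₀) :=
  MulSemiringAction.compHom _ ((arithmeticGalois F₀).comp H.subtype)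

theorem galAction_smul (H : Subgroup GQ) (σ : H) (x : laurentBaseChange Qb F₀) :
    (letI := galAction F₀ H; σ • x) = arithmeticRingAut F₀ (σ : GQ) x := rfl

/-- the leading coefficient, as an endomorphism of the multiplicative monoid with zero -/
def lc : laurentBaseChange Qb F₀ →*₀ laurentBaseChange Qb F₀ where
  toFun x := algebraMap Qb (laurentBaseChange Qb F₀) (x : LaurentSeries Qb).leadingCoeff
  map_zero' := by
    show algebraMap Qb (laurentBaseChange Qb F₀) (0 : LaurentSeries Qb).leadingCoeff = 0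
    rw [leadingCoeff_zero, map_zero]
  map_one' := by
    show algebraMap Qb (laurentBaseChange Qb F₀) (1 : LaurentSeries Qb).leadingCoeff = 1
    rw [leadingCoeff_one, map_one]
  map_mul' x y := by
    show algebraMap Qb (laurentBaseChange Qb F₀)
        ((x : LaurentSeries Qb) * (y : LaurentSeries Qb)).leadingCoeff = _
    rw [leadingCoeff_mul, map_mul]

theorem lc_apply (x : laurentBaseChange Qb F₀) :
    lc F₀ x = algebraMap Qb (laurentBaseChange Qb F₀) (x : LaurentSeries Qb).leadingCoeff := rfl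

theorem coe_algebraMap (a : Qb) :
    ((algebraMap Qb (laurentBaseChange Qb F₀) a : laurentBaseChange Qb F₀) : LaurentSeries Qb) =
      single 0 a := by
  rw [← algebraMap_laurentSeries_eq_single]
  rfl

theorem lc_algebraMap (a : Qb) :
    lc F₀ (algebraMap Qb (laurentBaseChange Qb F₀) a) = algebraMap Qb (laurentBaseChange Qb F₀) a := by
  rw [lc_apply, coe_algebraMap, leadingCoeff_of_single]

theorem lc_arithmeticRingAut (σ : GQ) (x : laurentBaseChange Qb F₀) :
    lc F₀ (arithmeticRingAut F₀ σ x) = arithmeticRingAut F₀ σ (lc F₀ x) := by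
  rw [lc_apply, lc_apply, arithmeticRingAut_algebraMap, coe_arithmeticRingAut_apply,
    leadingCoeff_coeffMap]
  rfl

/-- roots of unity of `F` are constants: `ζ ^ m = 1 → lc ζ = ζ` -/
theorem lc_of_pow_eq_one (m : ℕ) (hm : m ≠ 0) (ζ : laurentBaseChange Qb F₀) (hζ : ζ ^ m = 1) :
    lc F₀ ζ = ζ := by
  have hint : IsIntegral Qb ζ := by
    refine ⟨Polynomial.X ^ m - 1, Polynomial.monic_X_pow_sub_C (1 : Qb) hm, ?_⟩
    simp [hζ]
  have : Algebra.IsAlgebraic Qb (IntermediateField.adjoin Qb {ζ}) :=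
    IntermediateField.isAlgebraic_adjoin_simple hint
  have h := IntermediateField.eq_bot_of_isAlgClosed_of_isAlgebraic
    (IntermediateField.adjoin Qb {ζ})
  have hmem : ζ ∈ (⊥ : IntermediateField Qb (laurentBaseChange Qb F₀)) :=
    h ▸ IntermediateField.mem_adjoin_simple_self Qb ζ
  obtain ⟨a, ha⟩ := IntermediateField.mem_bot.mp hmem
  rw [← ha, lc_algebraMap]

/-- the constants are `m`-divisible -/
theorem exists_root_lc (m : ℕ) (hm : m ≠ 0) (x : laurentBaseChange Qb F₀) :
    ∃ y : laurentBaseChange Qb F₀, y ^ m = lc F₀ x ∧ lc F₀ y = y := by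
  obtain ⟨r, hr⟩ := IsAlgClosed.exists_pow_nat_eq (x : LaurentSeries Qb).leadingCoeff
    (Nat.pos_of_ne_zero hm)
  refine ⟨algebraMap Qb (laurentBaseChange Qb F₀) r, ?_, lc_algebraMap F₀ r⟩
  rw [← map_pow, hr, lc_apply]

/-! ### Finite orbits -/

/-- a function on `G_ℚ` which is invariant under right translation by a finite level subgroup has
finite range -/
theorem finite_range_of_level {β : Type*} (f : GQ → β) (E : IntermediateField ℚ Qb)
    [FiniteDimensional ℚ E] (hf : ∀ σ τ : GQ, Fixes E τ → f (σ * τ) = f σ) :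
    (Set.range f).Finite := by
  classical
  obtain ⟨E', hEE', hfd, hnorm⟩ : ∃ E' : IntermediateField ℚ Qb, E ≤ E' ∧
      FiniteDimensional ℚ E' ∧ Normal ℚ E' :=
    ⟨IntermediateField.normalClosure ℚ E Qb, IntermediateField.le_normalClosure E,
      inferInstance, normalClosure.normal ℚ E Qb⟩
  have hfac : ∀ σ τ : GQ, AlgEquiv.restrictNormalHom E' σ = AlgEquiv.restrictNormalHom E' τ →
      f σ = f τ := by
    intro σ τ h
    have h1 : Fixes E (τ⁻¹ * σ) := by
      intro a ha
      have h2 : AlgEquiv.restrictNormalHom E' (τ⁻¹ * σ) = 1 := by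
        rw [map_mul, map_inv, h, inv_mul_cancel]
      have h3 := AlgEquiv.restrictNormal_commutes (τ⁻¹ * σ) E' (⟨a, hEE' ha⟩ : E')
      have h4 : AlgEquiv.restrictNormal (τ⁻¹ * σ) E' = 1 := h2
      rw [h4] at h3
      exact h3.symm
    have h5 := hf τ (τ⁻¹ * σ) h1
    rw [mul_inv_cancel_left] at h5
    exact h5
  have : Finite (E' ≃ₐ[ℚ] E') := inferInstance
  let g : GQ → (E' ≃ₐ[ℚ] E') := AlgEquiv.restrictNormalHom E'
  refine (Set.finite_range (Function.extend g f (fun _ => f 1))).subset ?_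
  rintro _ ⟨σ, rfl⟩
  exact ⟨g σ, Function.FactorsThrough.extend_apply (fun a b hab => hfac a b hab) _ σ⟩

theorem orbit_finite (H : Subgroup GQ) (x : laurentBaseChange Qb F₀) :
    (letI := galAction F₀ H; MulAction.orbit H x).Finite := by
  let _ := galAction F₀ H
  obtain ⟨E, hE, hx⟩ := hasLevel_arithmeticRingAut_eq F₀ x
  have hfin := finite_range_of_level (fun σ : GQ => arithmeticRingAut F₀ σ x) E (fun σ τ hτ => by
    show arithmeticRingAut F₀ (σ * τ) x = arithmeticRingAut F₀ σ x
    have h1 : arithmeticRingAut F₀ (σ * τ) x =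
        arithmeticRingAut F₀ σ (arithmeticRingAut F₀ τ x) := by
      have := congrArg SemilinearAut.toRingAut (map_mul (arithmeticGalois F₀) σ τ)
      exact DFunLike.congr_fun this x
    rw [h1, hx τ hτ])
  refine hfin.subset ?_
  rintro _ ⟨σ, rfl⟩
  exact ⟨(σ : GQ), rfl⟩

/-! ### The descent -/

/-- **Invariant classes have invariant representatives** (function field form). -/
theorem exists_invariant_rep (H : Subgroup GQ) (m : ℕ) (hm : m ≠ 0)
    (u : laurentBaseChange Qb F₀) (hu0 : u ≠ 0)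
    (hu : ∀ σ ∈ H, ∃ c : laurentBaseChange Qb F₀, arithmeticRingAut F₀ σ u = u * c ^ m) :
    ∃ b : laurentBaseChange Qb F₀, b ≠ 0 ∧
      ∀ σ ∈ H, arithmeticRingAut F₀ σ (u * b ^ m) = u * b ^ m := by
  let _ := galAction F₀ H
  obtain ⟨b, hb0, hb⟩ := InvDescent.exists_invariant_rep (H := H) m hm (lc F₀)
    (fun σ x => lc_arithmeticRingAut F₀ (σ : GQ) x) (exists_root_lc F₀ m hm)
    (lc_of_pow_eq_one F₀ m hm) (orbit_finite F₀ H) u hu0 (fun σ => hu σ σ.2)
  exact ⟨b, hb0, fun σ hσ => hb ⟨σ, hσ⟩⟩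

/-! ### Kummer form -/

open Fermat.Agent.GJ.KumGroup Fermat.Agent.GJ.Kum.KumType

/-- **Invariant Kummer classes have invariant representatives** (`Kum_m(F_N)` form): a class fixed
by all `σ ∈ H` (`H` ANY subgroup of `G_ℚ`) is the class of an `m`-divisible unit fixed by `H`. -/
theorem exists_invariant_kum_rep (N m : ℕ) (hm : m ≠ 0) (H : Subgroup GQ)
    (x : Additive (Kum Kb (FK N) m)) (hx : ∀ σ ∈ H, gal N m σ x = x) :
    ∃ u : pDivUnits Kb (FK N) m, x = Additive.ofMul (Kum.mk u) ∧
      ∀ σ ∈ H, galUnits N σ (u : (FK N)ˣ) = (u : (FK N)ˣ) := by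
  obtain ⟨u₀, rfl⟩ := exists_rep x
  have hu : ∀ σ ∈ H, ∃ c : FK N,
      arithmeticRingAut (modularFunctionFieldFull N) σ ((u₀ : (FK N)ˣ) : FK N) =
        ((u₀ : (FK N)ˣ) : FK N) * c ^ m := by
    intro σ hσ
    have h1 := hx σ hσ
    rw [gal_mk] at h1
    have h2 : Kum.mk (⟨galUnits N σ u₀, galUnits_mem N m σ u₀ u₀.2⟩ : pDivUnits Kb (FK N) m) =
        Kum.mk u₀ := Additive.ofMul.injective h1
    obtain ⟨w, hw⟩ := (Kum.mk_eq_mk_iff).1 h2
    refine ⟨((w⁻¹ : (FK N)ˣ) : FK N), ?_⟩
    have h3 : (galUnits N σ (u₀ : (FK N)ˣ) : (FK N)ˣ) = (u₀ : (FK N)ˣ) * (w⁻¹) ^ m := by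
      have h4 : (u₀ : (FK N)ˣ) = galUnits N σ (u₀ : (FK N)ˣ) * w ^ m := hw
      rw [inv_pow, eq_mul_inv_iff_mul_eq]
      exact h4.symm
    have h5 := congrArg (fun v : (FK N)ˣ => (v : FK N)) h3
    simpa using h5
  obtain ⟨b, hb0, hb⟩ := exists_invariant_rep (modularFunctionFieldFull N) H m hm
    ((u₀ : (FK N)ˣ) : FK N) (u₀ : (FK N)ˣ).ne_zero hu
  let bu : (FK N)ˣ := Units.mk0 b hb0
  refine ⟨u₀ * ⟨bu ^ m, pow_mem_pDivUnits Kb (FK N) m bu⟩, ?_, fun σ hσ => ?_⟩
  · exact ofMul_mk_eq_of bu rfl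
  · refine Units.ext ?_
    rw [coe_galUnits]
    exact hb σ hσ

end Fermat.Agent.GL.Coh.InvDescentFK
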