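/-
GATE-L / (c) part 4 (helper1): **uniqueness of invariant representatives** of a Kummer class, up to
`m`-th powers of INVARIANT elements and an invariant constant.

Abstract form (`InvDescent` setting: `H` acts on the field `F`, `lc : F →*₀ F` equivariant with
`lc ζ = ζ` for `m`-th roots of unity): if `u`, `u' = u * h ^ m` are both `H`-invariant, then
`h₀ := h / lc h` is `H`-invariant, `a := (lc h) ^ m` is `H`-invariant and `u' = a * u * h₀ ^ m`.

Kummer form for `F_N`: two `H`-invariant representatives `u, u'` of the same class of `Kum_m(F_N)`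
differ by `u' = c * u * h₀ ^ m` with `h₀ ∈ (F_N^H)ˣ` and `c` an `H`-invariant CONSTANT (`c ∈ ℚ̄ˣ`).
(For `H` = inertia at `q` this constant is the "scaling by a constant of `R`" of report 204 (d).)
-/
import Mathlib
import Fermat.Agent.GL.Coh.InvDescentFK

set_option autoImplicit false

noncomputable section

namespace Fermat.Agent.GL.Coh.InvDescentUniq

section Abstract

variable {H F : Type*} [Group H] [Field F] [MulSemiringAction H F]

/-- if `u` and `u * h ^ m` are invariant then `h / lc h` is invariant -/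
theorem smul_div_lc_eq (m : ℕ) (lc : F →*₀ F)
    (hequiv : ∀ (σ : H) (x : F), lc (σ • x) = σ • lc x)
    (hmu : ∀ ζ : F, ζ ^ m = 1 → lc ζ = ζ)
    {u h : F} (hu0 : u ≠ 0) (hh0 : h ≠ 0) (hu : ∀ σ : H, σ • u = u)
    (hu' : ∀ σ : H, σ • (u * h ^ m) = u * h ^ m) (σ : H) :
    σ • (h / lc h) = h / lc h := by
  have hpow : (σ • h) ^ m = h ^ m := by
    have h1 := hu' σ
    rw [smul_mul', hu σ, smul_pow'] at h1
    exact mul_left_cancel₀ hu0 h1
  set ζ : F := σ • h / h with hζ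
  have hζm : ζ ^ m = 1 := by rw [hζ, div_pow, hpow, div_self (pow_ne_zero _ hh0)]
  have hσh : σ • h = ζ * h := by rw [hζ, div_mul_cancel₀ _ hh0]
  have hlc : σ • lc h = ζ * lc h := by rw [← hequiv, hσh, map_mul, hmu ζ hζm]
  have hlc0 : lc h ≠ 0 := (map_ne_zero lc).mpr hh0
  have hζ0 : ζ ≠ 0 := by
    intro h0
    rw [h0, zero_mul] at hσh
    exact hh0 ((smul_eq_zero_iff_eq σ).mp hσh)
  rw [smul_div₀', hσh, hlc, mul_div_mul_left _ _ hζ0]

/-- the constant `(lc h) ^ m` is invariant -/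
theorem smul_lc_pow_eq (m : ℕ) (lc : F →*₀ F)
    (hequiv : ∀ (σ : H) (x : F), lc (σ • x) = σ • lc x)
    {u h : F} (hu0 : u ≠ 0) (hu : ∀ σ : H, σ • u = u)
    (hu' : ∀ σ : H, σ • (u * h ^ m) = u * h ^ m) (σ : H) :
    σ • (lc h) ^ m = (lc h) ^ m := by
  have hpow : σ • h ^ m = h ^ m := by
    have h1 := hu' σ
    rw [smul_mul', hu σ] at h1
    exact mul_left_cancel₀ hu0 h1
  rw [← map_pow, ← hequiv, hpow]

/-- the decomposition `u * h ^ m = (lc h) ^ m * u * (h / lc h) ^ m` -/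
theorem mul_pow_eq (m : ℕ) (lc : F →*₀ F) {u h : F} (hh0 : h ≠ 0) :
    u * h ^ m = (lc h) ^ m * u * (h / lc h) ^ m := by
  have hlc0 : lc h ≠ 0 := (map_ne_zero lc).mpr hh0
  rw [div_pow]
  field_simp

end Abstract

section FK

open ModularCurve AlgebraicCurve HahnSeries Fermat.Agent.GJ.FiniteLevel
open Fermat.Agent.GL.Coh.InvDescentFK

local notation "Qb" => AlgebraicClosure ℚ
local notation "GQ" => (AlgebraicClosure ℚ ≃ₐ[ℚ] AlgebraicClosure ℚ)

variable (F₀ : IntermediateField ℚ (LaurentSeries ℚ))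

/-- **Uniqueness of invariant representatives** (function field form): if `u` and `u * h ^ m` are
fixed by `H ≤ G_ℚ` then `u * h ^ m = c * u * h₀ ^ m` with `h₀` fixed by `H` and `c` an `H`-fixed
constant. -/
theorem exists_invariant_root (H : Subgroup GQ) (m : ℕ) (hm : m ≠ 0)
    (u h : laurentBaseChange Qb F₀) (hu0 : u ≠ 0) (hh0 : h ≠ 0)
    (hu : ∀ σ ∈ H, arithmeticRingAut F₀ σ u = u)
    (hu' : ∀ σ ∈ H, arithmeticRingAut F₀ σ (u * h ^ m) = u * h ^ m) :
    ∃ (a : Qb) (h₀ : laurentBaseChange Qb F₀), a ≠ 0 ∧ h₀ ≠ 0 ∧ (∀ σ ∈ H, σ a = a) ∧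
      (∀ σ ∈ H, arithmeticRingAut F₀ σ h₀ = h₀) ∧
      u * h ^ m = algebraMap Qb (laurentBaseChange Qb F₀) a * u * h₀ ^ m := by
  let _ := galAction F₀ H
  have hequiv : ∀ (σ : H) (x : laurentBaseChange Qb F₀), lc F₀ (σ • x) = σ • lc F₀ x :=
    fun σ x => lc_arithmeticRingAut F₀ (σ : GQ) x
  have hmu := lc_of_pow_eq_one F₀ m hm
  have hu1 : ∀ σ : H, σ • u = u := fun σ => hu σ σ.2
  have hu2 : ∀ σ : H, σ • (u * h ^ m) = u * h ^ m := fun σ => hu' σ σ.2
  have hlc0 : (h : LaurentSeries Qb).leadingCoeff ≠ 0 :=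
    leadingCoeff_ne_zero.mpr (fun h0 => hh0 (Subtype.ext h0))
  refine ⟨(h : LaurentSeries Qb).leadingCoeff ^ m, h / lc F₀ h, pow_ne_zero _ hlc0,
    div_ne_zero hh0 ((map_ne_zero (lc F₀)).mpr hh0), fun σ hσ => ?_, fun σ hσ => ?_, ?_⟩
  · -- the constant is invariant
    have h1 := smul_lc_pow_eq m (lc F₀) hequiv hu0 hu1 hu2 ⟨σ, hσ⟩
    have h2 : arithmeticRingAut F₀ σ ((lc F₀ h) ^ m) = (lc F₀ h) ^ m := h1
    rw [lc_apply, ← map_pow, arithmeticRingAut_algebraMap] at h2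
    exact (algebraMap Qb (laurentBaseChange Qb F₀)).injective h2
  · exact smul_div_lc_eq m (lc F₀) hequiv hmu hu0 hh0 hu1 hu2 ⟨σ, hσ⟩
  · rw [map_pow, ← lc_apply]
    exact mul_pow_eq m (lc F₀) hh0

end FK

end Fermat.Agent.GL.Coh.InvDescentUniq
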