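/-
GATE-L / GALOIS-DESCENT (helper1): **Galois descent for a group acting smoothly on a field**.

`H` a group acting on a field `F` by field automorphisms, `C ≤ F` an `H`-stable subfield (the
"constants", e.g. `ℚ̄ ⊆ ℚ̄(X)` with `H ≤ G_ℚ` acting on coefficients), `C₀ := C ⊓ F^H`.

* (D1) `linearIndependent_of_invariant` (Artin): a family of `H`-invariant elements of `F` which is
  linearly independent over `C₀` is linearly independent over `C`  (`F^H` and `C` are linearly
  disjoint over `C₀`).
* (D2) `mem_span_invariants` (Speiser): if `V` is an `H`-stable `C`-subspace of `F` and `v ∈ V` is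
  *smooth* (there is a finite `H`-stable `Y ⊆ C` such that every `σ` fixing `Y` pointwise fixes
  `v`), then `v` lies in the `C`-span of the `H`-invariant elements of `V`.
* (D3) `mem_of_invariant`: if `F₁ ≤ F` is a subfield of `H`-invariants containing `C₀` and every
  element of `F` is a quotient of elements of the `C`-span of `F₁`, then every smooth `H`-invariant
  element of `F` lies in `F₁`  (`F^H = F₁`).

Mathlib only (+ `SmoothH90.fixer`).  No topology, no finiteness of `H`.
-/
import Mathlib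
import Fermat.Agent.GL.Coh.SmoothH90

set_option autoImplicit false

namespace Fermat.Agent.GL.Coh.SmoothDescent

open Fermat.Agent.GL.Coh.SmoothH90

variable {H F : Type*} [Group H] [Field F] [MulSemiringAction H F]

/-! ### (D1) Artin: linear disjointness -/

/-- core of (D1), explicit sums: a relation `∑_{i ∈ s} g i * w i = 0` with coefficients in `C`
between invariant elements `w i` that are independent over `C ⊓ F^H` is trivial. -/
theorem coeff_eq_zero_of_invariant (C : Subfield F) (hC : ∀ (σ : H), ∀ c ∈ C, σ • c ∈ C)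
    {ι : Type*} (w : ι → F) (hw : ∀ (σ : H) (i : ι), σ • w i = w i)
    (hli : ∀ (s : Finset ι) (g : ι → F), (∀ i, g i ∈ C) → (∀ (σ : H) (i : ι), σ • g i = g i) →
      ∑ i ∈ s, g i * w i = 0 → ∀ i ∈ s, g i = 0) :
    ∀ (n : ℕ) (s : Finset ι) (g : ι → F), s.card = n → (∀ i, g i ∈ C) →
      ∑ i ∈ s, g i * w i = 0 → ∀ i ∈ s, g i = 0 := by
  classical
  intro n
  induction n using Nat.strong_induction_on with
  | _ n ih =>
    intro s g hcard hgC hsum
    by_contra hcon
    push Not at hcon
    obtain ⟨i₀, hi₀s, hi₀⟩ := hcon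
    -- normalise `g i₀ = 1`
    set g' : ι → F := fun i => g i / g i₀ with hg'
    have hg'C : ∀ i, g' i ∈ C := fun i => C.div_mem (hgC i) (hgC i₀)
    have hg'1 : g' i₀ = 1 := div_self hi₀
    have hsum' : ∑ i ∈ s, g' i * w i = 0 := by
      have : ∑ i ∈ s, g' i * w i = (∑ i ∈ s, g i * w i) / g i₀ := by
        rw [Finset.sum_div]
        exact Finset.sum_congr rfl fun i _ => by rw [hg']; ring
      rw [this, hsum, zero_div]
    -- all `g' i` are invariant
    have hinv : ∀ (σ : H), ∀ i ∈ s, σ • g' i = g' i := by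
      intro σ i his
      by_cases hii : i = i₀
      · rw [hii, hg'1, smul_one]
      have hσsum : ∑ j ∈ s, (σ • g' j) * w j = 0 := by
        have h1 := congrArg (fun x => σ • x) hsum'
        simp only [Finset.smul_sum, smul_mul', hw, smul_zero] at h1
        exact h1
      have hdiff : ∑ j ∈ s.erase i₀, (σ • g' j - g' j) * w j = 0 := by
        have h2 : ∑ j ∈ s, (σ • g' j - g' j) * w j = 0 := by
          simp only [sub_mul, Finset.sum_sub_distrib, hσsum, hsum', sub_zero]
        rw [← Finset.add_sum_erase s _ hi₀s, hg'1, smul_one, sub_self, zero_mul, zero_add] at h2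
        exact h2
      have hlt : (s.erase i₀).card < n := by
        rw [← hcard]
        exact Finset.card_erase_lt_of_mem hi₀s
      have h3 := ih _ hlt (s.erase i₀) (fun j => σ • g' j - g' j) rfl
        (fun j => C.sub_mem (hC σ _ (hg'C j)) (hg'C j)) hdiff i
        (Finset.mem_erase.mpr ⟨hii, his⟩)
      exact sub_eq_zero.mp h3
    -- so the relation has invariant coefficients (put `0` outside `s`)
    set g'' : ι → F := fun i => if i ∈ s then g' i else 0 with hg''
    have h4 := hli s g'' (fun i => by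
        rw [hg'']; by_cases h : i ∈ s
        · simp only [h, if_true]; exact hg'C i
        · simp only [h, if_false]; exact C.zero_mem)
      (fun σ i => by
        rw [hg'']; by_cases h : i ∈ s
        · simp only [h, if_true]; exact hinv σ i h
        · simp only [h, if_false]; exact smul_zero σ)
      (by
        rw [← hsum']
        exact Finset.sum_congr rfl fun i hi => by rw [hg'']; simp only [hi, if_true])
      i₀ hi₀s
    rw [hg''] at h4
    simp only [hi₀s, if_true, hg'1] at h4
    exact one_ne_zero h4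

/-- the subfield `C ⊓ F^H` of invariant constants -/
def invConst (H : Type*) [Group H] [MulSemiringAction H F] (C : Subfield F) : Subfield F :=
  C ⊓ FixedPoints.subfield H F

theorem mem_invConst {C : Subfield F} {x : F} :
    x ∈ invConst H C ↔ x ∈ C ∧ ∀ σ : H, σ • x = x := by
  rw [invConst, Subfield.mem_inf]
  exact Iff.rfl

theorem invConst_le (C : Subfield F) : invConst H C ≤ C := inf_le_left

/-- **(D1) Artin's linear disjointness**: `H`-invariant elements which are linearly independent
over `C ⊓ F^H` are linearly independent over `C`. -/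
theorem linearIndependent_of_invariant (C : Subfield F) (hC : ∀ (σ : H), ∀ c ∈ C, σ • c ∈ C)
    {ι : Type*} (w : ι → F) (hw : ∀ (σ : H) (i : ι), σ • w i = w i)
    (hli : LinearIndependent ↥(invConst H C) w) : LinearIndependent ↥C w := by
  classical
  rw [linearIndependent_iff'] at hli ⊢
  intro s g hsum i his
  have key := coeff_eq_zero_of_invariant C hC w hw (fun s g hgC hginv hs => by
      have h1 := hli s (fun i => ⟨g i, mem_invConst.mpr ⟨hgC i, fun σ => hginv σ i⟩⟩)
        (by simpa only [Subfield.smul_def, smul_eq_mul] using hs)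
      intro i hi
      have h2 := h1 i hi
      exact congrArg Subtype.val h2)
    s.card s (fun i => (g i : F)) rfl (fun i => (g i).2)
    (by simpa only [Subfield.smul_def, smul_eq_mul] using hsum) i his
  exact Subtype.ext key

/-! ### (D2) Speiser: invariants span -/

section Speiser

variable (C : Subfield F) (hC : ∀ (σ : H), ∀ c ∈ C, σ • c ∈ C)

/-- the monoid of constants fixed by a subgroup -/
def fixedConst (U : Subgroup H) : Submonoid ↥C where
  carrier := {c | ∀ ρ ∈ U, ρ • (c : F) = c}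
  one_mem' := fun ρ _ => smul_one (ρ : H)
  mul_mem' := fun {a b} ha hb ρ hρ => by
    rw [Subfield.coe_mul, smul_mul', ha ρ hρ, hb ρ hρ]

include hC in
/-- the character `c ↦ σ • c` of the monoid of `U`-fixed constants, with values in `C` -/
def constChar (U : Subgroup H) (σ : H) : fixedConst C U →* ↥C where
  toFun c := ⟨σ • ((c : ↥C) : F), hC σ _ (c : ↥C).2⟩
  map_one' := Subtype.ext (smul_one σ)
  map_mul' x y := Subtype.ext (smul_mul' σ ((x : ↥C) : F) ((y : ↥C) : F))

theorem constChar_mul_right (U : Subgroup H) (σ ρ : H) (hρ : ρ ∈ U) :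
    constChar C hC U (σ * ρ) = constChar C hC U σ := by
  refine MonoidHom.ext fun x => Subtype.ext ?_
  show (σ * ρ) • ((x : ↥C) : F) = σ • ((x : ↥C) : F)
  rw [mul_smul, x.2 ρ hρ]

/-- the characters indexed by `H ⧸ U` -/
def constCharQ (U : Subgroup H) : H ⧸ U → (fixedConst C U →* ↥C) :=
  Quotient.lift (constChar C hC U) (by
    intro a b hab
    have h : a⁻¹ * b ∈ U := QuotientGroup.leftRel_apply.mp hab
    have : b = a * (a⁻¹ * b) := by group
    rw [this, constChar_mul_right C hC U a _ h])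

theorem constCharQ_mk (U : Subgroup H) (σ : H) (x : fixedConst C U) :
    ((constCharQ C hC U (σ : H ⧸ U) x : ↥C) : F) = σ • ((x : ↥C) : F) := rfl

theorem constCharQ_injective (Y : Set F) (hYC : Y ⊆ C) :
    Function.Injective (constCharQ C hC (fixer (H := H) Y)) := by
  intro a b
  refine Quotient.inductionOn₂ a b fun σ τ h => ?_
  refine Quotient.sound (QuotientGroup.leftRel_apply.mpr ?_)
  intro y hy
  have hyM : (⟨y, hYC hy⟩ : ↥C) ∈ fixedConst C (fixer (H := H) Y) := fun ρ hρ => hρ y hy
  have h1 := congrArg (fun z : ↥C => (z : F)) (DFunLike.congr_fun h ⟨⟨y, hYC hy⟩, hyM⟩)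
  have h2 : σ • y = τ • y := h1
  rw [mul_smul, ← h2, inv_smul_smul]

/-- the evaluation vectors of the characters span: there is a finitely supported family of
constants `c α` with `∑_α c α * a(α) = δ_{a,1}` for all `a ∈ H ⧸ U`. -/
theorem exists_dual_family (Y : Set F) (hYfin : Y.Finite) (hYC : Y ⊆ C)
    (hYstab : ∀ (σ : H), ∀ y ∈ Y, σ • y ∈ Y) :
    ∃ c : fixedConst C (fixer (H := H) Y) →₀ ↥C, ∀ a : H ⧸ fixer (H := H) Y,
      ((a = ((1 : H) : H ⧸ fixer (H := H) Y)) →
        (∑ α ∈ c.support, ((c α : ↥C) : F) *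
          ((constCharQ C hC (fixer (H := H) Y) a α : ↥C) : F)) = 1) ∧
      ((a ≠ ((1 : H) : H ⧸ fixer (H := H) Y)) →
        (∑ α ∈ c.support, ((c α : ↥C) : F) *
          ((constCharQ C hC (fixer (H := H) Y) a α : ↥C) : F)) = 0) := by
  classical
  set U : Subgroup H := fixer Y with hU
  have horb : ∀ x ∈ Y, (MulAction.orbit H x).Finite := by
    intro x hx
    refine hYfin.subset ?_
    rintro _ ⟨σ, rfl⟩
    exact hYstab σ x hx
  have hfi : U.FiniteIndex := fixer_finiteIndex hYfin horb
  have : Finite (H ⧸ U) := Subgroup.finite_quotient_of_finiteIndex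
  have : Fintype (H ⧸ U) := Fintype.ofFinite _
  have hli : LinearIndependent ↥C (fun a : H ⧸ U => (constCharQ C hC U a : fixedConst C U → ↥C)) :=
    (linearIndependent_monoidHom (fixedConst C U) ↥C).comp (constCharQ C hC U)
      (constCharQ_injective C hC Y hYC)
  let ev : fixedConst C U → (H ⧸ U → ↥C) := fun α a => constCharQ C hC U a α
  have htop : Submodule.span ↥C (Set.range ev) = ⊤ := by
    by_contra hne
    obtain ⟨f, hf0, hf⟩ := Submodule.exists_le_ker_of_lt_top _ (lt_top_iff_ne_top.mpr hne)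
    have hfev : ∀ α, f (ev α) = 0 := fun α =>
      LinearMap.mem_ker.mp (hf (Submodule.subset_span ⟨α, rfl⟩))
    have hsum : ∑ a : H ⧸ U, f (Pi.single a 1) •
        (constCharQ C hC U a : fixedConst C U → ↥C) = 0 := by
      funext α
      have h1 := hfev α
      rw [LinearMap.pi_apply_eq_sum_univ f (ev α)] at h1
      rw [Finset.sum_apply, Pi.zero_apply, ← h1]
      refine Finset.sum_congr rfl fun a _ => ?_
      rw [Pi.smul_apply, smul_eq_mul, smul_eq_mul, mul_comm]
      congr 2
      funext j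
      by_cases h : a = j
      · subst h; simp
      · simp [h, Ne.symm h]
    have h0 := Fintype.linearIndependent_iff.mp hli _ hsum
    apply hf0
    refine LinearMap.pi_ext fun a x => ?_
    have h2 : (Pi.single a x : H ⧸ U → ↥C) = x • Pi.single a 1 := by
      rw [← Pi.single_smul, smul_eq_mul, mul_one]
    rw [h2, map_smul, h0 a, smul_zero, LinearMap.zero_apply]
  have hmem : (Pi.single ((1 : H) : H ⧸ U) 1 : H ⧸ U → ↥C) ∈
      Submodule.span ↥C (Set.range ev) := by rw [htop]; trivial
  obtain ⟨c, hc⟩ := Finsupp.mem_span_range_iff_exists_finsupp.mp hmem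
  refine ⟨c, fun a => ?_⟩
  have h1 := congrFun hc a
  rw [Finsupp.sum, Finset.sum_apply] at h1
  have h2 := congrArg (fun z : ↥C => (z : F)) h1
  simp only [Pi.smul_apply, smul_eq_mul] at h2
  rw [show ((∑ α ∈ c.support, c α * ev α a : ↥C) : F) =
      ∑ α ∈ c.support, ((c α : ↥C) : F) * ((ev α a : ↥C) : F) from by
    rw [← Subfield.coe_subtype, map_sum]; rfl] at h2
  refine ⟨fun h => ?_, fun h => ?_⟩
  · rw [h2, h, Pi.single_eq_same]; rfl
  · rw [h2, Pi.single_eq_of_ne h]; rfl

include hC in
/-- **(D2) Speiser's lemma for smooth actions**: a smooth element `v` of an `H`-stable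
`C`-subspace `V ≤ F` lies in the `C`-span of the `H`-invariant elements of `V`. -/
theorem mem_span_invariants (V : Submodule ↥C F) (hV : ∀ (σ : H), ∀ v ∈ V, σ • v ∈ V)
    (v : F) (hv : v ∈ V) (Y : Set F) (hYfin : Y.Finite) (hYC : Y ⊆ C)
    (hYstab : ∀ (σ : H), ∀ y ∈ Y, σ • y ∈ Y)
    (hYv : ∀ σ : H, (∀ y ∈ Y, σ • y = y) → σ • v = v) :
    v ∈ Submodule.span ↥C {w : F | w ∈ V ∧ ∀ σ : H, σ • w = w} := by
  classical
  set U : Subgroup H := fixer Y with hU
  obtain ⟨c, hc⟩ : ∃ c : fixedConst C U →₀ ↥C, ∀ a : H ⧸ U,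
      ((a = ((1 : H) : H ⧸ U)) →
        (∑ α ∈ c.support, ((c α : ↥C) : F) * ((constCharQ C hC U a α : ↥C) : F)) = 1) ∧
      ((a ≠ ((1 : H) : H ⧸ U)) →
        (∑ α ∈ c.support, ((c α : ↥C) : F) * ((constCharQ C hC U a α : ↥C) : F)) = 0) :=
    exists_dual_family C hC Y hYfin hYC hYstab
  have horb : ∀ x ∈ Y, (MulAction.orbit H x).Finite := by
    intro x hx
    refine hYfin.subset ?_
    rintro _ ⟨σ, rfl⟩
    exact hYstab σ x hx
  have hfi : U.FiniteIndex := fixer_finiteIndex hYfin horb
  have : Finite (H ⧸ U) := Subgroup.finite_quotient_of_finiteIndex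
  have : Fintype (H ⧸ U) := Fintype.ofFinite _
  -- the conjugates of `v`, indexed by `H ⧸ U`
  let vv : H ⧸ U → F := Quotient.lift (fun σ : H => σ • v) (by
    intro a b hab
    have h : a⁻¹ * b ∈ U := QuotientGroup.leftRel_apply.mp hab
    have hb : b = a * (a⁻¹ * b) := by group
    show a • v = b • v
    rw [hb, mul_smul, hYv _ h])
  have hvv : ∀ σ : H, vv (σ : H ⧸ U) = σ • v := fun _ => rfl
  let TT : fixedConst C U → H ⧸ U → F := fun α a => ((constCharQ C hC U a α : ↥C) : F) * vv a
  have hTT : ∀ (α : fixedConst C U) (σ : H),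
      TT α (σ : H ⧸ U) = σ • (((α : ↥C) : F) * v) := by
    intro α σ
    show ((constCharQ C hC U (σ : H ⧸ U) α : ↥C) : F) * vv (σ : H ⧸ U) = _
    rw [constCharQ_mk, hvv, smul_mul']
  have hTV : ∀ (α : fixedConst C U) (a : H ⧸ U), TT α a ∈ V := by
    intro α a
    refine Quotient.inductionOn a fun σ => ?_
    show TT α (σ : H ⧸ U) ∈ V
    rw [hTT]
    refine hV σ _ ?_
    have : ((α : ↥C) : F) * v = (α : ↥C) • v := by rw [Subfield.smul_def, smul_eq_mul]
    rw [this]
    exact V.smul_mem _ hv
  have hTinv : ∀ (α : fixedConst C U) (τ : H), τ • ∑ a : H ⧸ U, TT α a = ∑ a : H ⧸ U, TT α a := by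
    intro α τ
    rw [Finset.smul_sum]
    refine Fintype.sum_equiv (MulAction.toPerm τ) _ _ fun a => ?_
    refine Quotient.inductionOn a fun σ => ?_
    show τ • TT α (σ : H ⧸ U) = TT α (τ • (σ : H ⧸ U))
    have hq : τ • (σ : H ⧸ U) = ((τ * σ : H) : H ⧸ U) := rfl
    rw [hq, hTT, hTT, mul_smul]
  -- `v` is the combination of the traces
  have hveq : v = ∑ α ∈ c.support, ((c α : ↥C) : F) * ∑ a : H ⧸ U, TT α a := by
    have h1 : ∑ α ∈ c.support, ((c α : ↥C) : F) * ∑ a : H ⧸ U, TT α a =
        ∑ a : H ⧸ U, (∑ α ∈ c.support, ((c α : ↥C) : F) *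
          ((constCharQ C hC U a α : ↥C) : F)) * vv a := by
      simp only [Finset.mul_sum, Finset.sum_mul]
      rw [Finset.sum_comm]
      refine Finset.sum_congr rfl fun a _ => Finset.sum_congr rfl fun α _ => ?_
      show ((c α : ↥C) : F) * (((constCharQ C hC U a α : ↥C) : F) * vv a) = _
      rw [mul_assoc]
    rw [h1, Finset.sum_eq_single ((1 : H) : H ⧸ U)]
    · rw [(hc _).1 rfl, one_mul, hvv, one_smul]
    · intro a _ ha
      rw [(hc a).2 ha, zero_mul]
    · intro h
      exact absurd (Finset.mem_univ _) h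
  rw [hveq]
  refine Submodule.sum_mem _ fun α _ => ?_
  have : ((c α : ↥C) : F) * ∑ a : H ⧸ U, TT α a = (c α) • ∑ a : H ⧸ U, TT α a := by
    rw [Subfield.smul_def, smul_eq_mul]
  rw [this]
  refine Submodule.smul_mem _ _ (Submodule.subset_span ⟨?_, hTinv α⟩)
  exact Submodule.sum_mem _ fun a _ => hTV α a

end Speiser

/-! ### (D3) the fixed field of a compositum -/

section Compositum

variable (C : Subfield F) (hC : ∀ (σ : H), ∀ c ∈ C, σ • c ∈ C)
  (F₁ : Subfield F) (hF₁ : ∀ (σ : H), ∀ x ∈ F₁, σ • x = x) (hC₀ : invConst H C ≤ F₁)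

include hC hF₁ in
/-- the `C`-span of a subfield of invariants is `H`-stable -/
theorem smul_mem_span (σ : H) {r : F} (hr : r ∈ Submodule.span ↥C (F₁ : Set F)) :
    σ • r ∈ Submodule.span ↥C (F₁ : Set F) := by
  induction hr using Submodule.span_induction with
  | mem x hx => rw [hF₁ σ x hx]; exact Submodule.subset_span hx
  | zero => rw [smul_zero]; exact Submodule.zero_mem _
  | add x y _ _ hx hy => rw [smul_add]; exact Submodule.add_mem _ hx hy
  | smul c x _ hx =>
    have h1 : σ • (c • x) = (⟨σ • (c : F), hC σ _ c.2⟩ : ↥C) • (σ • x) := by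
      rw [Subfield.smul_def, Subfield.smul_def, smul_eq_mul, smul_eq_mul, smul_mul']
    rw [h1]
    exact Submodule.smul_mem _ _ hx

include hC hF₁ hC₀ in
/-- an `H`-invariant `C`-combination of elements of `F₁` lies in `F₁` -/
theorem sum_mem_of_invariant {ι : Type*} (f : ι → F) (hf : ∀ i, f i ∈ F₁) :
    ∀ (n : ℕ) (s : Finset ι) (g : ι → F), s.card = n → (∀ i, g i ∈ C) →
      (∀ σ : H, σ • ∑ i ∈ s, g i * f i = ∑ i ∈ s, g i * f i) → ∑ i ∈ s, g i * f i ∈ F₁ := by
  classical
  intro n
  induction n using Nat.strong_induction_on with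
  | _ n ih =>
    intro s g hcard hgC hinv
    by_cases hrel : ∃ a : ι → F, (∀ i, a i ∈ C) ∧ (∀ (σ : H) (i : ι), σ • a i = a i) ∧
        ∑ i ∈ s, a i * f i = 0 ∧ ∃ i₀ ∈ s, a i₀ ≠ 0
    · -- a relation over the invariant constants: shorten the representation
      obtain ⟨a, haC, hainv, hasum, i₀, hi₀s, hi₀⟩ := hrel
      set g' : ι → F := fun i => g i - g i₀ * a i / a i₀ with hg'
      have hg'C : ∀ i, g' i ∈ C := fun i =>
        C.sub_mem (hgC i) (C.div_mem (C.mul_mem (hgC i₀) (haC i)) (haC i₀))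
      have hg'0 : g' i₀ = 0 := by rw [hg']; field_simp; ring
      have hsum' : ∑ i ∈ s, g' i * f i = ∑ i ∈ s, g i * f i := by
        have h1 : ∑ i ∈ s, g' i * f i =
            ∑ i ∈ s, g i * f i - g i₀ / a i₀ * ∑ i ∈ s, a i * f i := by
          rw [Finset.mul_sum, ← Finset.sum_sub_distrib]
          exact Finset.sum_congr rfl fun i _ => by rw [hg']; ring
        rw [h1, hasum, mul_zero, sub_zero]
      have herase : ∑ i ∈ s.erase i₀, g' i * f i = ∑ i ∈ s, g i * f i := by
        rw [← hsum', ← Finset.add_sum_erase s _ hi₀s, hg'0, zero_mul, zero_add]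
      have hlt : (s.erase i₀).card < n := by
        rw [← hcard]
        exact Finset.card_erase_lt_of_mem hi₀s
      rw [← herase]
      refine ih _ hlt (s.erase i₀) g' rfl hg'C fun σ => ?_
      rw [herase]
      exact hinv σ
    · -- no relation over the invariant constants: Artin gives invariance of the coefficients
      have hli : ∀ (t : Finset {i // i ∈ s}) (b : {i // i ∈ s} → F), (∀ i, b i ∈ C) →
          (∀ (σ : H) (i : {i // i ∈ s}), σ • b i = b i) →
          ∑ i ∈ t, b i * f i = 0 → ∀ i ∈ t, b i = 0 := by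
        intro t b hbC hbinv hbsum i hit
        by_contra hbi
        apply hrel
        let a : ι → F := fun j => if h : j ∈ s then
            (if (⟨j, h⟩ : {i // i ∈ s}) ∈ t then b ⟨j, h⟩ else 0) else 0
        have ha_pos : ∀ (j : ι) (h : j ∈ s),
            a j = if (⟨j, h⟩ : {i // i ∈ s}) ∈ t then b ⟨j, h⟩ else 0 := fun j h => dif_pos h
        have ha_neg : ∀ j : ι, j ∉ s → a j = 0 := fun j h => dif_neg h
        have ha : ∀ j : {i // i ∈ s}, a (j : ι) = if j ∈ t then b j else 0 :=
          fun j => ha_pos (j : ι) j.2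
        refine ⟨a, fun j => ?_, fun σ j => ?_, ?_, i, i.2, ?_⟩
        · by_cases h : j ∈ s
          · rw [ha_pos j h]
            by_cases h2 : (⟨j, h⟩ : {i // i ∈ s}) ∈ t
            · rw [if_pos h2]; exact hbC _
            · rw [if_neg h2]; exact C.zero_mem
          · rw [ha_neg j h]; exact C.zero_mem
        · by_cases h : j ∈ s
          · rw [ha_pos j h]
            by_cases h2 : (⟨j, h⟩ : {i // i ∈ s}) ∈ t
            · rw [if_pos h2]; exact hbinv σ _
            · rw [if_neg h2]; exact smul_zero σ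
          · rw [ha_neg j h]; exact smul_zero σ
        · rw [← hbsum, ← Finset.sum_attach s]
          symm
          calc ∑ j ∈ t, b j * f j = ∑ j ∈ t, a j * f j :=
                Finset.sum_congr rfl fun j hj => by rw [ha j, if_pos hj]
            _ = ∑ j ∈ s.attach, a j * f j :=
                Finset.sum_subset (fun j _ => Finset.mem_attach s j)
                  (fun j _ hj => by rw [ha j, if_neg hj, zero_mul])
        · rw [ha i, if_pos hit]
          exact hbi
      have hginv : ∀ (σ : H), ∀ i ∈ s, σ • g i = g i := by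
        intro σ i his
        have hdiff : ∑ j ∈ (Finset.univ : Finset {i // i ∈ s}),
            (σ • g j - g j) * f j = 0 := by
          have h1 := hinv σ
          rw [Finset.smul_sum] at h1
          have h2 : ∑ j ∈ s, (σ • g j - g j) * f j = 0 := by
            simp only [sub_mul, Finset.sum_sub_distrib]
            rw [sub_eq_zero, ← h1]
            exact Finset.sum_congr rfl fun j _ => by rw [smul_mul', hF₁ σ _ (hf j)]
          rw [← h2, ← Finset.sum_attach s]
          rfl
        have h3 := coeff_eq_zero_of_invariant C hC (fun j : {i // i ∈ s} => f j)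
          (fun σ j => hF₁ σ _ (hf j)) hli _ Finset.univ (fun j => σ • g j - g j) rfl
          (fun j => C.sub_mem (hC σ _ (hgC j)) (hgC j)) hdiff ⟨i, his⟩ (Finset.mem_univ _)
        exact sub_eq_zero.mp h3
      refine F₁.sum_mem fun i his => F₁.mul_mem (hC₀ ?_) (hf i)
      exact mem_invConst.mpr ⟨hgC i, fun σ => hginv σ i his⟩

include hC hF₁ hC₀ in
/-- an `H`-invariant element of the `C`-span of `F₁` lies in `F₁` -/
theorem mem_of_mem_span_of_invariant {r : F} (hr : r ∈ Submodule.span ↥C (F₁ : Set F))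
    (hinv : ∀ σ : H, σ • r = r) : r ∈ F₁ := by
  obtain ⟨n, c, f, rfl⟩ := Submodule.mem_span_set'.mp hr
  have h1 : ∑ i, c i • (f i : F) = ∑ i ∈ (Finset.univ : Finset (Fin n)), (c i : F) * (f i : F) :=
    Finset.sum_congr rfl fun i _ => by rw [Subfield.smul_def, smul_eq_mul]
  rw [h1] at hinv ⊢
  exact sum_mem_of_invariant C hC F₁ hF₁ hC₀ (fun i => (f i : F))
    (fun i => (f i).2) _ Finset.univ (fun i => (c i : F)) rfl
    (fun i => (c i).2) hinv

include hC hF₁ hC₀ in
/-- **(D3)**: a smooth `H`-invariant element of `F` which is a quotient of two elements of the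
`C`-span of `F₁` lies in `F₁`. -/
theorem mem_of_invariant
    (hsmooth : ∀ z : F, ∃ Y : Set F, Y.Finite ∧ Y ⊆ C ∧ (∀ (σ : H), ∀ y ∈ Y, σ • y ∈ Y) ∧
      ∀ σ : H, (∀ y ∈ Y, σ • y = y) → σ • z = z)
    (x : F) (hx : ∀ σ : H, σ • x = x)
    (hgen : ∃ P Q : F, Q ≠ 0 ∧ P ∈ Submodule.span ↥C (F₁ : Set F) ∧
      Q ∈ Submodule.span ↥C (F₁ : Set F) ∧ x * Q = P) : x ∈ F₁ := by
  obtain ⟨P, Q, hQ0, hP, hQ, hxQ⟩ := hgen
  -- the module of denominators
  let D : Submodule ↥C F :=
    { carrier := {Q | Q ∈ Submodule.span ↥C (F₁ : Set F) ∧ x * Q ∈ Submodule.span ↥C (F₁ : Set F)}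
      zero_mem' := ⟨Submodule.zero_mem _, by rw [mul_zero]; exact Submodule.zero_mem _⟩
      add_mem' := fun {a b} ha hb =>
        ⟨Submodule.add_mem _ ha.1 hb.1, by rw [mul_add]; exact Submodule.add_mem _ ha.2 hb.2⟩
      smul_mem' := fun c a ha => ⟨Submodule.smul_mem _ c ha.1, by
        have : x * (c • a) = c • (x * a) := by
          rw [Subfield.smul_def, Subfield.smul_def, smul_eq_mul, smul_eq_mul]; ring
        rw [this]
        exact Submodule.smul_mem _ c ha.2⟩ }
  have hDstab : ∀ (σ : H), ∀ v ∈ D, σ • v ∈ D := by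
    intro σ v hv
    refine ⟨smul_mem_span C hC F₁ hF₁ σ hv.1, ?_⟩
    have : x * σ • v = σ • (x * v) := by rw [smul_mul', hx σ]
    rw [this]
    exact smul_mem_span C hC F₁ hF₁ σ hv.2
  have hQD : Q ∈ D := ⟨hQ, by rw [hxQ]; exact hP⟩
  obtain ⟨Y, hYfin, hYC, hYstab, hYQ⟩ := hsmooth Q
  have hspan := mem_span_invariants C hC D hDstab Q hQD Y hYfin hYC hYstab hYQ
  -- a nonzero invariant denominator
  obtain ⟨Q₀, hQ₀D, hQ₀inv, hQ₀0⟩ : ∃ Q₀ : F, Q₀ ∈ D ∧ (∀ σ : H, σ • Q₀ = Q₀) ∧ Q₀ ≠ 0 := by
    by_contra hcon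
    have hle : Submodule.span ↥C {w : F | w ∈ D ∧ ∀ σ : H, σ • w = w} ≤ ⊥ := by
      refine Submodule.span_le.mpr fun w hw => ?_
      by_contra hw0
      exact hcon ⟨w, hw.1, hw.2, fun h => hw0 ((Submodule.mem_bot ↥C).mpr h)⟩
    exact hQ0 ((Submodule.mem_bot ↥C).mp (hle hspan))
  have h1 : Q₀ ∈ F₁ := mem_of_mem_span_of_invariant C hC F₁ hF₁ hC₀ hQ₀D.1 hQ₀inv
  have h2 : x * Q₀ ∈ F₁ := mem_of_mem_span_of_invariant C hC F₁ hF₁ hC₀ hQ₀D.2
    (fun σ => by rw [smul_mul', hx σ, hQ₀inv σ])
  have h3 : x = x * Q₀ / Q₀ := by field_simp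
  rw [h3]
  exact F₁.div_mem h2 h1

end Compositum

end Fermat.Agent.GL.Coh.SmoothDescent
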