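/-
GATE-L / GALOIS-DESCENT, instance (helper1): **the fixed field of a subgroup `H ≤ G_ℚ` acting
coefficientwise on `ℚ̄(F₀) = laurentBaseChange ℚ̄ F₀ ⊆ ℚ̄((q))` is `L₀(F₀)`**, `L₀ = ℚ̄^H`.

* `coeffMap_mem_laurentBaseChange_of_algHom` : base change `L → L'` of the coefficient field maps
  `laurentBaseChange L F₀` into `laurentBaseChange L' F₀`;
* `exists_coeffMap_eq_of_fixed` : if `x ∈ laurentBaseChange ℚ̄ F₀` is fixed by all `σ ∈ H` and `L₀`
  is an intermediate field with `ℚ̄^H ⊆ L₀ ⊆ ℚ̄^H`, then `x = coeffMap (L₀ ↪ ℚ̄) y` for some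
  `y ∈ laurentBaseChange L₀ F₀`.
  With `F₀ = modularFunctionFieldFull N`, `H` = inertia at `A | q`, `L₀ = ℚ̄^I`: `(F_N)^I = K₀(X₀(N))`;
  together with `InvDescentFK.exists_invariant_kum_rep` every `I`-invariant Kummer class is
  represented by a function defined over `K₀`.
* `linearIndependent_of_fixed` : (D1) in this setting: `H`-fixed elements of `ℚ̄(F₀)` which are
  linearly independent over the `H`-fixed constants are linearly independent over `ℚ̄`.
* `exists_descended_kum_rep` : an `H`-invariant class of `Kum_m(F_N)` is the class of an `H`-fixed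
  `m`-divisible unit whose `q`-expansion is the base change of an element of `L₀(X(N))`.
-/
import Mathlib
import Fermat.Agent.GL.Coh.SmoothDescent
import Fermat.Agent.GL.Coh.InvDescentFK

set_option autoImplicit false

noncomputable section

namespace Fermat.Agent.GL.Coh.DescentFK

open ModularCurve AlgebraicCurve HahnSeries Fermat.Agent.GJ.FiniteLevel
open Fermat.Agent.GL.Coh.InvDescentFK Fermat.Agent.GL.Coh.SmoothDescent

local notation "Qb" => AlgebraicClosure ℚ
local notation "GQ" => (AlgebraicClosure ℚ ≃ₐ[ℚ] AlgebraicClosure ℚ)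

/-! ### Base change of the coefficient field -/

section BaseChange

variable {L L' : Type*} [Field L] [Field L'] [Algebra ℚ L] [Algebra ℚ L']

omit [Algebra ℚ L] [Algebra ℚ L'] in
theorem coeffMap_algebraMap' (ι : L →+* L') (a : L) :
    coeffMap ι (algebraMap L (LaurentSeries L) a) = algebraMap L' (LaurentSeries L') (ι a) := by
  rw [algebraMap_laurentSeries_eq_single, algebraMap_laurentSeries_eq_single, coeffMap_single]

theorem coeffMap_coeffEmb' (ι : L →ₐ[ℚ] L') (z : LaurentSeries ℚ) :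
    coeffMap (ι : L →+* L') (coeffEmb L z) = coeffEmb L' z := by
  rw [coeffEmb, coeffEmb, coeffMap_coeffMap]
  exact coeffMap_congr (RingHom.ext fun c => ι.commutes c) z

variable (F₀ : IntermediateField ℚ (LaurentSeries ℚ))

theorem coeffMap_mem_laurentBaseChange_of_algHom (ι : L →ₐ[ℚ] L') {y : LaurentSeries L}
    (hy : y ∈ laurentBaseChange L F₀) :
    coeffMap (ι : L →+* L') y ∈ laurentBaseChange L' F₀ := by
  rw [mem_laurentBaseChange_iff] at hy
  induction hy using Subfield.closure_induction with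
  | mem y hy =>
      rcases hy with ⟨a, rfl⟩ | ⟨z, hz, rfl⟩
      · rw [coeffMap_algebraMap']
        exact (laurentBaseChange L' F₀).algebraMap_mem _
      · rw [coeffMap_coeffEmb']
        exact coeffEmb_mem_laurentBaseChange L' hz
  | one => simp
  | add x y _ _ hx hy => simpa using add_mem hx hy
  | neg x _ hx => simpa using neg_mem hx
  | inv x _ hx => simpa using inv_mem hx
  | mul x y _ _ hx hy => simpa using mul_mem hx hy

end BaseChange

/-! ### Finite stable sets of algebraic numbers -/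

/-- a finite level `E` is cut out by a finite `G_ℚ`-stable set of algebraic numbers -/
theorem exists_finite_stable (E : IntermediateField ℚ Qb) [FiniteDimensional ℚ E] :
    ∃ Y₀ : Set Qb, Y₀.Finite ∧ (∀ σ : GQ, ∀ y ∈ Y₀, σ y ∈ Y₀) ∧
      ∀ σ : GQ, (∀ y ∈ Y₀, σ y = y) → Fixes E σ := by
  classical
  obtain ⟨S, hS⟩ := (Module.finite_def (R := ℚ) (M := E)).mp inferInstance
  refine ⟨⋃ b ∈ S, (minpoly ℚ ((b : E) : Qb)).rootSet Qb, ?_, ?_, ?_⟩
  · exact Set.Finite.biUnion S.finite_toSet fun b _ => Polynomial.rootSet_finite _ _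
  · intro σ y hy
    rw [Set.mem_iUnion₂] at hy ⊢
    obtain ⟨b, hb, hy⟩ := hy
    refine ⟨b, hb, ?_⟩
    rw [Polynomial.mem_rootSet] at hy ⊢
    refine ⟨hy.1, ?_⟩
    have := Polynomial.aeval_algHom_apply (σ : Qb →ₐ[ℚ] Qb) y (minpoly ℚ ((b : E) : Qb))
    exact this.trans (by rw [hy.2, map_zero])
  · intro σ hσ a ha
    have hb : ∀ b ∈ S, σ ((b : E) : Qb) = ((b : E) : Qb) := by
      intro b hbS
      refine hσ _ ?_
      rw [Set.mem_iUnion₂]
      refine ⟨b, hbS, ?_⟩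
      have hint : IsIntegral ℚ ((b : E) : Qb) :=
        ((AlgebraicClosure.isAlgebraic ℚ).isAlgebraic _).isIntegral
      rw [Polynomial.mem_rootSet]
      exact ⟨minpoly.ne_zero hint, minpoly.aeval ℚ _⟩
    have hmem : (⟨a, ha⟩ : E) ∈ Submodule.span ℚ (S : Set E) := by rw [hS]; trivial
    have key : ∀ x : E, x ∈ Submodule.span ℚ (S : Set E) → σ (x : Qb) = (x : Qb) := by
      intro x hx
      induction hx using Submodule.span_induction with
      | mem x hx => exact hb x hx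
      | zero => simp
      | add x y _ _ hx hy =>
        rw [show ((x + y : E) : Qb) = (x : Qb) + (y : Qb) from rfl, map_add, hx, hy]
      | smul r x _ hx =>
        rw [show ((r • x : E) : Qb) = r • (x : Qb) from rfl, Algebra.smul_def, map_mul,
          AlgEquiv.commutes, hx]
    exact key ⟨a, ha⟩ hmem

/-! ### The fixed field -/

section Main

variable (F₀ : IntermediateField ℚ (LaurentSeries ℚ)) (H : Subgroup GQ)
  (L₀ : IntermediateField ℚ Qb)

/-- the constants `ℚ̄ ⊆ ℚ̄(F₀)` -/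
def constSub : Subfield ↥(laurentBaseChange Qb F₀) :=
  (algebraMap Qb ↥(laurentBaseChange Qb F₀)).fieldRange

theorem mem_constSub {x : ↥(laurentBaseChange Qb F₀)} :
    x ∈ constSub F₀ ↔ ∃ a : Qb, algebraMap Qb ↥(laurentBaseChange Qb F₀) a = x :=
  RingHom.mem_fieldRange

/-- the image of `L₀(F₀)` in `ℚ̄(F₀)` -/
def descSub : Subfield ↥(laurentBaseChange Qb F₀) :=
  ((laurentBaseChange ↥L₀ F₀).toSubfield.map (coeffMap ((L₀.val : ↥L₀ →ₐ[ℚ] Qb) : ↥L₀ →+* Qb))).comap
    ((laurentBaseChange Qb F₀).val : ↥(laurentBaseChange Qb F₀) →+* LaurentSeries Qb)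

theorem mem_descSub {x : ↥(laurentBaseChange Qb F₀)} :
    x ∈ descSub F₀ L₀ ↔ ∃ y ∈ laurentBaseChange ↥L₀ F₀,
      coeffMap ((L₀.val : ↥L₀ →ₐ[ℚ] Qb) : ↥L₀ →+* Qb) y = (x : LaurentSeries Qb) := by
  rw [descSub, Subfield.mem_comap, Subfield.mem_map]
  rfl

variable (hL₀ : ∀ a : Qb, (∀ σ ∈ H, σ a = a) → a ∈ L₀) (hfix : ∀ a ∈ L₀, ∀ σ ∈ H, σ a = a)

theorem constSub_stable (σ : H) (c : ↥(laurentBaseChange Qb F₀)) (hc : c ∈ constSub F₀) :
    (let _ := galAction F₀ H; σ • c) ∈ constSub F₀ := by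
  obtain ⟨a, rfl⟩ := (mem_constSub F₀).mp hc
  exact (mem_constSub F₀).mpr ⟨(σ : GQ) a, (arithmeticRingAut_algebraMap F₀ (σ : GQ) a).symm⟩

include hfix in
theorem descSub_fixed (σ : H) (x : ↥(laurentBaseChange Qb F₀)) (hx : x ∈ descSub F₀ L₀) :
    (let _ := galAction F₀ H; σ • x) = x := by
  obtain ⟨y, _, hy⟩ := (mem_descSub F₀ L₀).mp hx
  refine Subtype.ext ?_
  show coeffMap (((σ : GQ) : Qb ≃ₐ[ℚ] Qb) : Qb →+* Qb) (x : LaurentSeries Qb) = (x : LaurentSeries Qb)
  rw [← hy, coeffMap_coeffMap]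
  exact coeffMap_congr (RingHom.ext fun a => hfix a.1 a.2 σ σ.2) y

include hL₀ in
theorem invConst_le_descSub :
    (let _ := galAction F₀ H; invConst H (constSub F₀)) ≤ descSub F₀ L₀ := by
  let _ := galAction F₀ H
  intro x hx
  obtain ⟨hxC, hxinv⟩ := mem_invConst.mp hx
  obtain ⟨a, rfl⟩ := (mem_constSub F₀).mp hxC
  have ha : a ∈ L₀ := by
    refine hL₀ a fun σ hσ => ?_
    have h1 := hxinv ⟨σ, hσ⟩
    have h2 : arithmeticRingAut F₀ σ (algebraMap Qb ↥(laurentBaseChange Qb F₀) a) =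
        algebraMap Qb ↥(laurentBaseChange Qb F₀) a := h1
    rw [arithmeticRingAut_algebraMap] at h2
    exact (algebraMap Qb ↥(laurentBaseChange Qb F₀)).injective h2
  refine (mem_descSub F₀ L₀).mpr ⟨algebraMap ↥L₀ (LaurentSeries ↥L₀) ⟨a, ha⟩,
    (laurentBaseChange ↥L₀ F₀).algebraMap_mem _, ?_⟩
  rw [coeffMap_algebraMap', coe_algebraMap, algebraMap_laurentSeries_eq_single]
  rfl

theorem smooth (z : ↥(laurentBaseChange Qb F₀)) :
    let _ := galAction F₀ H
    ∃ Y : Set ↥(laurentBaseChange Qb F₀), Y.Finite ∧ Y ⊆ constSub F₀ ∧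
      (∀ (σ : H), ∀ y ∈ Y, σ • y ∈ Y) ∧ ∀ σ : H, (∀ y ∈ Y, σ • y = y) → σ • z = z := by
  let _ := galAction F₀ H
  obtain ⟨E, hE, hz⟩ := hasLevel_arithmeticRingAut_eq F₀ z
  obtain ⟨Y₀, hfin, hstab, hfixes⟩ := exists_finite_stable E
  refine ⟨algebraMap Qb ↥(laurentBaseChange Qb F₀) '' Y₀, hfin.image _, ?_, ?_, ?_⟩
  · rintro _ ⟨a, _, rfl⟩
    exact (mem_constSub F₀).mpr ⟨a, rfl⟩
  · rintro σ _ ⟨a, ha, rfl⟩
    exact ⟨(σ : GQ) a, hstab σ a ha, (arithmeticRingAut_algebraMap F₀ (σ : GQ) a).symm⟩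
  · intro σ hσ
    refine hz (σ : GQ) (hfixes (σ : GQ) fun y hy => ?_)
    have h1 := hσ _ ⟨y, hy, rfl⟩
    have h2 : arithmeticRingAut F₀ (σ : GQ) (algebraMap Qb ↥(laurentBaseChange Qb F₀) y) =
        algebraMap Qb ↥(laurentBaseChange Qb F₀) y := h1
    rw [arithmeticRingAut_algebraMap] at h2
    exact (algebraMap Qb ↥(laurentBaseChange Qb F₀)).injective h2

/-- the `ℚ̄`-algebra generated by `F₀` inside `ℚ̄((q))` is its `ℚ̄`-span -/
theorem adjoin_eq_span :
    Subalgebra.toSubmodule (Algebra.adjoin Qb (⇑(coeffEmb Qb) '' (F₀ : Set (LaurentSeries ℚ)))) =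
      @Submodule.span Qb (LaurentSeries Qb) _ _
        (Algebra.toModule (R := Qb) (A := LaurentSeries Qb))
        (⇑(coeffEmb Qb) '' (F₀ : Set (LaurentSeries ℚ))) := by
  refine Algebra.adjoin_eq_span_of_subset (R := Qb) (A := LaurentSeries Qb) ?_
  have hle : Submonoid.closure (⇑(coeffEmb Qb) '' (F₀ : Set (LaurentSeries ℚ))) ≤
      Submonoid.map (coeffEmb Qb : LaurentSeries ℚ →* LaurentSeries Qb)
        F₀.toSubfield.toSubring.toSubmonoid := by
    rw [Submonoid.closure_le]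
    rintro _ ⟨z, hz, rfl⟩
    exact ⟨z, hz, rfl⟩
  intro y hy
  obtain ⟨z, hz, rfl⟩ := hle hy
  exact @Submodule.subset_span Qb (LaurentSeries Qb) _ _
    (Algebra.toModule (R := Qb) (A := LaurentSeries Qb)) _ _ ⟨z, hz, rfl⟩

/-- the `ℚ̄`-algebra generated by `F₀` inside `ℚ̄((q))` lies in the `ℚ̄`-span of `L₀(F₀)`
inside `ℚ̄(F₀)` -/
theorem exists_mem_span {r : LaurentSeries Qb}
    (hr : r ∈ Algebra.adjoin Qb (⇑(coeffEmb Qb) '' (F₀ : Set (LaurentSeries ℚ)))) :
    ∃ y : ↥(laurentBaseChange Qb F₀), (y : LaurentSeries Qb) = r ∧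
      y ∈ Submodule.span ↥(constSub F₀) (descSub F₀ L₀ : Set ↥(laurentBaseChange Qb F₀)) := by
  rw [← Subalgebra.mem_toSubmodule, adjoin_eq_span] at hr
  induction hr using Submodule.span_induction with
  | mem r hr =>
      obtain ⟨z, hz, rfl⟩ := hr
      refine ⟨⟨coeffEmb Qb z, coeffEmb_mem_laurentBaseChange Qb hz⟩, rfl,
        Submodule.subset_span ?_⟩
      exact (mem_descSub F₀ L₀).mpr ⟨coeffEmb ↥L₀ z, coeffEmb_mem_laurentBaseChange ↥L₀ hz,
        coeffMap_coeffEmb' L₀.val z⟩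
  | zero => exact ⟨0, rfl, Submodule.zero_mem _⟩
  | add r s _ _ hr hs =>
      obtain ⟨y, rfl, hy⟩ := hr
      obtain ⟨y', rfl, hy'⟩ := hs
      exact ⟨y + y', rfl, Submodule.add_mem _ hy hy'⟩
  | smul a r _ hr =>
      obtain ⟨y, rfl, hy⟩ := hr
      refine ⟨algebraMap Qb ↥(laurentBaseChange Qb F₀) a * y, ?_, ?_⟩
      · rw [Algebra.smul_def]
        rfl
      · have h := Submodule.smul_mem _
          (⟨algebraMap Qb ↥(laurentBaseChange Qb F₀) a, (mem_constSub F₀).mpr ⟨a, rfl⟩⟩ :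
            ↥(constSub F₀)) hy
        rwa [Subfield.smul_def, smul_eq_mul] at h

include hL₀ hfix in
/-- **the fixed field of `H` on `ℚ̄(F₀)` is `L₀(F₀)`**, `L₀ = ℚ̄^H`. -/
theorem exists_coeffMap_eq_of_fixed (x : ↥(laurentBaseChange Qb F₀))
    (hx : ∀ σ ∈ H, arithmeticRingAut F₀ σ x = x) :
    ∃ y ∈ laurentBaseChange ↥L₀ F₀,
      coeffMap ((L₀.val : ↥L₀ →ₐ[ℚ] Qb) : ↥L₀ →+* Qb) y = (x : LaurentSeries Qb) := by
  let _ := galAction F₀ H
  refine (mem_descSub F₀ L₀).mp ?_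
  obtain ⟨r, hr, s, hs, hxrs⟩ := IntermediateField.mem_adjoin_iff_div.mp x.2
  by_cases hs0 : s = 0
  · have hx0 : x = 0 := Subtype.ext (by rw [hxrs, hs0, div_zero]; rfl)
    rw [hx0]
    exact zero_mem _
  obtain ⟨P, hPr, hP⟩ := exists_mem_span F₀ L₀ hr
  obtain ⟨Q, hQs, hQ⟩ := exists_mem_span F₀ L₀ hs
  refine mem_of_invariant (H := ↥H) (constSub F₀) (constSub_stable F₀ H)
    (descSub F₀ L₀) (descSub_fixed F₀ H L₀ hfix) (invConst_le_descSub F₀ H L₀ hL₀)
    (smooth F₀ H) x (fun σ => hx σ σ.2) ⟨P, Q, ?_, hP, hQ, ?_⟩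
  · intro h
    exact hs0 (by rw [← hQs, h]; rfl)
  · refine Subtype.ext ?_
    show (x : LaurentSeries Qb) * (Q : LaurentSeries Qb) = (P : LaurentSeries Qb)
    rw [hQs, hPr, hxrs, div_mul_cancel₀ _ hs0]

include hL₀ in
/-- **(D1)** for `ℚ̄(F₀)`: `H`-fixed functions which are linearly independent over the `H`-fixed
constants `L₀` stay linearly independent over all constants `ℚ̄`. -/
theorem linearIndependent_of_fixed {ι : Type*} (f : ι → ↥(laurentBaseChange Qb F₀))
    (hf : ∀ i, ∀ σ ∈ H, arithmeticRingAut F₀ σ (f i) = f i)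
    (hli : ∀ (s : Finset ι) (g : ι → Qb), (∀ i, g i ∈ L₀) →
      ∑ i ∈ s, algebraMap Qb ↥(laurentBaseChange Qb F₀) (g i) * f i = 0 → ∀ i ∈ s, g i = 0) :
    LinearIndependent Qb f := by
  classical
  let _ := galAction F₀ H
  have h1 : LinearIndependent ↥(invConst (↥H) (constSub F₀)) f := by
    rw [linearIndependent_iff']
    intro s g hsum i his
    have hmem : ∀ i, ∃ a : Qb, a ∈ L₀ ∧
        algebraMap Qb ↥(laurentBaseChange Qb F₀) a = (g i : ↥(laurentBaseChange Qb F₀)) := by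
      intro i
      obtain ⟨hxC, hxinv⟩ := mem_invConst.mp (g i).2
      obtain ⟨a, ha⟩ := (mem_constSub F₀).mp hxC
      refine ⟨a, hL₀ a fun σ hσ => ?_, ha⟩
      have h2 : arithmeticRingAut F₀ σ (g i : ↥(laurentBaseChange Qb F₀)) =
          (g i : ↥(laurentBaseChange Qb F₀)) := hxinv ⟨σ, hσ⟩
      rw [← ha, arithmeticRingAut_algebraMap] at h2
      exact (algebraMap Qb ↥(laurentBaseChange Qb F₀)).injective h2
    choose a haL ha using hmem
    have h3 := hli s a haL (by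
      rw [← hsum]
      exact Finset.sum_congr rfl fun i _ => by rw [ha i, Subfield.smul_def, smul_eq_mul]) i his
    refine Subtype.ext ?_
    rw [← ha i, h3, map_zero]
    rfl
  have h2 := linearIndependent_of_invariant (H := ↥H) (constSub F₀) (constSub_stable F₀ H) f
    (fun σ i => hf i σ σ.2) h1
  rw [linearIndependent_iff'] at h2 ⊢
  intro s g hsum i his
  have h3 := h2 s (fun i => ⟨algebraMap Qb ↥(laurentBaseChange Qb F₀) (g i),
    (mem_constSub F₀).mpr ⟨g i, rfl⟩⟩) (by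
      rw [← hsum]
      exact Finset.sum_congr rfl fun i _ => by
        rw [Subfield.smul_def, smul_eq_mul, Algebra.smul_def]) i his
  have h4 : algebraMap Qb ↥(laurentBaseChange Qb F₀) (g i) = 0 := congrArg Subtype.val h3
  exact (map_eq_zero _).mp h4

end Main

/-! ### Kummer form -/

open Fermat.Agent.GJ.KumGroup Fermat.Agent.GJ.Kum.KumType

/-- **Invariant Kummer classes of `F_N` are represented by functions defined over `L₀ = ℚ̄^H`**:
a class in `Kum_m(F_N)` fixed by all `σ ∈ H` is the class of an `m`-divisible unit `u` which is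
`H`-fixed and whose `q`-expansion is the base change of an element of `L₀(X(N))`. -/
theorem exists_descended_kum_rep (N m : ℕ) (hm : m ≠ 0) (H : Subgroup GQ)
    (L₀ : IntermediateField ℚ Qb) (hL₀ : ∀ a : Qb, (∀ σ ∈ H, σ a = a) → a ∈ L₀)
    (hfix : ∀ a ∈ L₀, ∀ σ ∈ H, σ a = a)
    (x : Additive (Kum Kb (FK N) m)) (hx : ∀ σ ∈ H, gal N m σ x = x) :
    ∃ u : pDivUnits Kb (FK N) m, x = Additive.ofMul (Kum.mk u) ∧
      (∀ σ ∈ H, galUnits N σ (u : (FK N)ˣ) = (u : (FK N)ˣ)) ∧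
      ∃ y ∈ laurentBaseChange ↥L₀ (modularFunctionFieldFull N),
        coeffMap ((L₀.val : ↥L₀ →ₐ[ℚ] Qb) : ↥L₀ →+* Qb) y =
          ((((u : (FK N)ˣ) : FK N) : ↥(laurentBaseChange Qb (modularFunctionFieldFull N))) :
            LaurentSeries Qb) := by
  obtain ⟨u, hxu, hu⟩ := exists_invariant_kum_rep N m hm H x hx
  refine ⟨u, hxu, hu, ?_⟩
  refine exists_coeffMap_eq_of_fixed (modularFunctionFieldFull N) H L₀ hL₀ hfix _ fun σ hσ => ?_
  rw [← coe_galUnits, hu σ hσ]

end Fermat.Agent.GL.Coh.DescentFK
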